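/-
Program G (S56), block GW-Euler, node (EU-1d) ARTIN COUNT.  helper7.  Mathlib only.

For a finite group `G` and a divisor-closed predicate `P` on orders (e.g. `P n := ¬ p ∣ n`):
there are two finite families `Dp`, `Dm` of cyclic subgroups with `P`-orders such that for every
`h` with `P (orderOf h)`
  `∑ i, #Fix_h(G ⧸ Dp i) = ∑ i, #Fix_h(G ⧸ Dm i) + |G|`.
(Explicitly: `∑_C ∑_{d ∣ |C|} μ(d) (|C|/d) #Fix_h(G ⧸ C^d) = |G|`, `C` running over the cyclic
subgroups with `P (|C|)`, `C^d` the subgroup of index `d`.)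
-/
import Mathlib

set_option autoImplicit false
set_option linter.style.haveILetI false

namespace Fermat.Agent.TW.Euler.Artin

open ArithmeticFunction
open scoped ArithmeticFunction.Moebius ArithmeticFunction.zeta

variable {G : Type*} [Group G]

/-- `h` fixes the coset `xD` iff `x⁻¹ h x ∈ D`. -/
theorem smul_mk_eq_iff (D : Subgroup G) (h x : G) :
    h • (x : G ⧸ D) = (x : G ⧸ D) ↔ x⁻¹ * h * x ∈ D := by
  rw [MulAction.Quotient.smul_mk, QuotientGroup.eq]
  have : (h • x)⁻¹ * x = (x⁻¹ * h * x)⁻¹ := by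
    simp [smul_eq_mul, mul_assoc]
  rw [this, inv_mem_iff]

/-- `|D| · #Fix_h(G/D) = #{x | x⁻¹ h x ∈ D}`. -/
theorem card_mul_card_fixedBy (D : Subgroup G) (h : G) :
    Nat.card D * Nat.card (MulAction.fixedBy (G ⧸ D) h) =
      Nat.card {x : G // x⁻¹ * h * x ∈ D} := by
  rw [← QuotientGroup.card_preimage_mk D (MulAction.fixedBy (G ⧸ D) h)]
  apply Nat.card_congr
  apply Equiv.subtypeEquivRight
  intro x
  rw [Set.mem_preimage, MulAction.mem_fixedBy, smul_mk_eq_iff]

/-- Membership in the subgroup of index `d` of a finite cyclic group. -/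
theorem mem_zpowers_pow_iff {c y : G} (hc : IsOfFinOrder c) {d : ℕ} (hd : d ∣ orderOf c)
    (hy : y ∈ Subgroup.zpowers c) :
    y ∈ Subgroup.zpowers (c ^ d) ↔ y ^ (orderOf c / d) = 1 := by
  have hn : 0 < orderOf c := hc.orderOf_pos
  obtain ⟨m, hm⟩ := hd
  have hd0 : 0 < d := Nat.pos_of_ne_zero (by rintro rfl; rw [zero_mul] at hm; omega)
  have hm' : orderOf c / d = m := by rw [hm]; exact Nat.mul_div_cancel_left m hd0
  rw [hm']
  constructor
  · rintro ⟨i, rfl⟩
    show ((c ^ d) ^ i) ^ m = 1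
    rw [← zpow_natCast ((c ^ d) ^ i) m, ← zpow_mul, mul_comm, zpow_mul, zpow_natCast,
      ← pow_mul, ← hm, pow_orderOf_eq_one, one_zpow]
  · intro h1
    obtain ⟨j, rfl⟩ := (hc.mem_powers_iff_mem_zpowers).mpr hy
    rw [← pow_mul, ← orderOf_dvd_iff_pow_eq_one, hm] at h1
    -- d * m ∣ j * m ⟹ d ∣ j
    have hm0 : 0 < m := Nat.pos_of_ne_zero (by rintro rfl; rw [mul_zero] at hm; omega)
    have : d ∣ j := (Nat.mul_dvd_mul_iff_right hm0).mp h1
    obtain ⟨t, rfl⟩ := this
    show c ^ (d * t) ∈ Subgroup.zpowers (c ^ d)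
    rw [pow_mul]
    exact Subgroup.npow_mem_zpowers _ _

/-- `∑_{d ∣ e} μ(d) = [e = 1]`. -/
theorem sum_divisors_moebius (e : ℕ) :
    ∑ d ∈ e.divisors, (μ d : ℤ) = if e = 1 then 1 else 0 := by
  have := congrArg (fun f : ArithmeticFunction ℤ => f e) moebius_mul_coe_zeta
  simp only [coe_mul_zeta_apply, one_apply] at this
  exact this

open Classical in
/-- The Möbius sum over the subgroups of a finite cyclic group containing `y`. -/
theorem sum_moebius_mem_zpowers_pow {c y : G} (hc : IsOfFinOrder c) :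
    ∑ d ∈ (orderOf c).divisors, (if y ∈ Subgroup.zpowers (c ^ d) then (μ d : ℤ) else 0) =
      if Subgroup.zpowers y = Subgroup.zpowers c then 1 else 0 := by
  classical
  have hn : 0 < orderOf c := hc.orderOf_pos
  by_cases hy : y ∈ Subgroup.zpowers c
  · -- `y ∈ ⟨c⟩`
    have hdvd : orderOf y ∣ orderOf c := orderOf_dvd_of_mem_zpowers hy
    obtain ⟨e, he⟩ := hdvd
    have hy0 : 0 < orderOf y := Nat.pos_of_ne_zero (by intro h0; rw [h0, zero_mul] at he; omega)
    have he0 : 0 < e := Nat.pos_of_ne_zero (by rintro rfl; rw [mul_zero] at he; omega)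
    have key : ∀ d ∈ (orderOf c).divisors, (y ∈ Subgroup.zpowers (c ^ d) ↔ d ∣ e) := by
      intro d hd
      have hd' : d ∣ orderOf c := Nat.dvd_of_mem_divisors hd
      rw [mem_zpowers_pow_iff hc hd' hy, ← orderOf_dvd_iff_pow_eq_one]
      obtain ⟨m, hm⟩ := hd'
      have hd0 : 0 < d := Nat.pos_of_ne_zero (by rintro rfl; rw [zero_mul] at hm; omega)
      have : orderOf c / d = m := by rw [hm]; exact Nat.mul_div_cancel_left m hd0
      rw [this]
      constructor
      · rintro ⟨t, rfl⟩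
        refine ⟨t, ?_⟩
        have h1 : orderOf y * e = orderOf y * (d * t) := by rw [← he, hm]; ring
        exact Nat.eq_of_mul_eq_mul_left hy0 h1
      · rintro ⟨t, rfl⟩
        refine ⟨t, ?_⟩
        have h1 : d * m = d * (orderOf y * t) := by rw [← hm, he]; ring
        exact Nat.eq_of_mul_eq_mul_left hd0 h1
    rw [Finset.sum_congr rfl (fun d hd => by rw [if_congr (key d hd) rfl rfl]),
      ← Finset.sum_filter]
    have hfilter : (orderOf c).divisors.filter (fun d => d ∣ e) = e.divisors := by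
      ext d
      simp only [Finset.mem_filter, Nat.mem_divisors]
      constructor
      · rintro ⟨-, h2⟩; exact ⟨h2, he0.ne'⟩
      · rintro ⟨h2, -⟩; exact ⟨⟨h2.trans ⟨orderOf y, by rw [he]; ring⟩, hn.ne'⟩, h2⟩
    rw [hfilter, sum_divisors_moebius]
    have : (e = 1) ↔ Subgroup.zpowers y = Subgroup.zpowers c := by
      constructor
      · rintro rfl
        rw [mul_one] at he
        have hle : Subgroup.zpowers y ≤ Subgroup.zpowers c := by
          rw [Subgroup.zpowers_le]; exact hy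
        haveI : Finite (Subgroup.zpowers c) := hc.finite_zpowers
        refine Subgroup.eq_of_le_of_card_ge hle ?_
        rw [Nat.card_zpowers, Nat.card_zpowers, he]
      · intro h
        have : orderOf y = orderOf c := by
          rw [← Nat.card_zpowers, ← Nat.card_zpowers, h]
        rw [this] at he
        have : orderOf c * 1 = orderOf c * e := by rw [mul_one]; exact he
        exact (Nat.eq_of_mul_eq_mul_left hn this).symm
    rw [if_congr this rfl rfl]
  · -- `y ∉ ⟨c⟩`
    have h1 : ∀ d ∈ (orderOf c).divisors, y ∉ Subgroup.zpowers (c ^ d) := by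
      intro d _ hmem
      apply hy
      have : Subgroup.zpowers (c ^ d) ≤ Subgroup.zpowers c := by
        rw [Subgroup.zpowers_le]; exact Subgroup.npow_mem_zpowers _ _
      exact this hmem
    rw [Finset.sum_eq_zero (fun d hd => by rw [if_neg (h1 d hd)])]
    have : Subgroup.zpowers y ≠ Subgroup.zpowers c := by
      intro h
      apply hy
      rw [← h]; exact Subgroup.mem_zpowers y
    rw [if_neg this]

/-- Turn an integer-weighted finite family into two `Fin`-indexed families (positive and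
negative parts, with repetitions). -/
theorem exists_fin_families {J : Type*} [Fintype J] {X : Type*} (D : J → X) (w : J → ℤ) :
    ∃ (np nm : ℕ) (Dp : Fin np → X) (Dm : Fin nm → X),
      (∀ i, ∃ j, w j ≠ 0 ∧ Dp i = D j) ∧ (∀ i, ∃ j, w j ≠ 0 ∧ Dm i = D j) ∧
      ∀ f : X → ℤ, ∑ i, f (Dp i) - ∑ i, f (Dm i) = ∑ j, w j * f (D j) := by
  classical
  -- the generic construction for natural weights
  have gen : ∀ v : J → ℕ, ∃ (n : ℕ) (E : Fin n → X),
      (∀ i, ∃ j, v j ≠ 0 ∧ E i = D j) ∧ ∀ f : X → ℤ, ∑ i, f (E i) = ∑ j, (v j : ℤ) * f (D j) := by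
    intro v
    let I := Σ j : J, Fin (v j)
    let e : I ≃ Fin (Fintype.card I) := Fintype.equivFin I
    refine ⟨Fintype.card I, fun i => D (e.symm i).1, ?_, ?_⟩
    · intro i
      refine ⟨(e.symm i).1, ?_, rfl⟩
      intro h0
      have := (e.symm i).2
      rw [h0] at this
      exact this.elim0
    · intro f
      rw [← Equiv.sum_comp e (fun i => f (D (e.symm i).1))]
      simp only [Equiv.symm_apply_apply]
      rw [Fintype.sum_sigma]
      simp
  obtain ⟨np, Dp, hp, sp⟩ := gen (fun j => (w j).toNat)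
  obtain ⟨nm, Dm, hm, sm⟩ := gen (fun j => (-w j).toNat)
  refine ⟨np, nm, Dp, Dm, ?_, ?_, ?_⟩
  · intro i
    obtain ⟨j, hj, h⟩ := hp i
    refine ⟨j, ?_, h⟩
    rintro h0; apply hj; simp [h0]
  · intro i
    obtain ⟨j, hj, h⟩ := hm i
    refine ⟨j, ?_, h⟩
    rintro h0; apply hj; simp [h0]
  · intro f
    rw [sp, sm, ← Finset.sum_sub_distrib]
    apply Finset.sum_congr rfl
    intro j _
    rw [← sub_mul, Int.toNat_sub_toNat_neg]

section Count

variable [Finite G]

/-- cyclic subgroups whose order satisfies `P` -/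
abbrev CycSub (G : Type*) [Group G] (P : ℕ → Prop) : Type _ :=
  {C : Subgroup G // IsCyclic C ∧ P (Nat.card C)}

/-- a chosen generator -/
noncomputable def gen {P : ℕ → Prop} (C : CycSub G P) : G :=
  ((Subgroup.isCyclic_iff_exists_zpowers_eq_top C.1).mp C.2.1).choose

omit [Finite G] in
theorem zpowers_gen {P : ℕ → Prop} (C : CycSub G P) : Subgroup.zpowers (gen C) = C.1 :=
  ((Subgroup.isCyclic_iff_exists_zpowers_eq_top C.1).mp C.2.1).choose_spec

noncomputable instance (P : ℕ → Prop) : Fintype (CycSub G P) := Fintype.ofFinite _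

omit [Finite G] in
theorem orderOf_gen {P : ℕ → Prop} (C : CycSub G P) : orderOf (gen C) = Nat.card C.1 := by
  rw [← Nat.card_zpowers, zpowers_gen]

open Classical in
/-- The count in conjugation form. -/
theorem sum_moebius_card_conj (P : ℕ → Prop) (h : G) (hh : P (orderOf h)) :
    ∑ C : CycSub G P, ∑ d ∈ (orderOf (gen C)).divisors,
      (μ d : ℤ) * (Nat.card {x : G // x⁻¹ * h * x ∈ Subgroup.zpowers (gen C ^ d)} : ℤ) =
      (Nat.card G : ℤ) := by
  haveI : Fintype G := Fintype.ofFinite G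
  have hcard : ∀ (D : Subgroup G), (Nat.card {x : G // x⁻¹ * h * x ∈ D} : ℤ) =
      ∑ x : G, if x⁻¹ * h * x ∈ D then (1 : ℤ) else 0 := by
    intro D
    rw [Nat.card_eq_fintype_card, Fintype.card_subtype, Finset.sum_boole]
  simp_rw [hcard, Finset.mul_sum, mul_ite, mul_one, mul_zero]
  rw [Finset.sum_congr rfl (fun C _ => Finset.sum_comm), Finset.sum_comm]
  have hx : ∀ x : G, ∑ C : CycSub G P, ∑ d ∈ (orderOf (gen C)).divisors,
      (if x⁻¹ * h * x ∈ Subgroup.zpowers (gen C ^ d) then (μ d : ℤ) else 0) = 1 := by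
    intro x
    have hfin : ∀ c : G, IsOfFinOrder c := fun c => isOfFinOrder_of_finite c
    simp_rw [sum_moebius_mem_zpowers_pow (hfin _), zpowers_gen]
    have hC : IsCyclic (Subgroup.zpowers (x⁻¹ * h * x)) ∧
        P (Nat.card (Subgroup.zpowers (x⁻¹ * h * x))) := by
      refine ⟨inferInstance, ?_⟩
      rw [Nat.card_zpowers]
      have hsc : SemiconjBy x (x⁻¹ * h * x) h := by
        show x * (x⁻¹ * h * x) = h * x
        group
      rw [hsc.orderOf_eq]; exact hh
    rw [Finset.sum_eq_single (⟨Subgroup.zpowers (x⁻¹ * h * x), hC⟩ : CycSub G P)]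
    · simp
    · intro C _ hne
      rw [if_neg]
      intro heq
      exact hne (Subtype.ext heq.symm)
    · intro hnot; exact absurd (Finset.mem_univ _) hnot
  rw [Finset.sum_congr rfl (fun x _ => hx x)]
  simp [Nat.card_eq_fintype_card]


open Classical in
/-- The count in fixed-point form. -/
theorem sum_moebius_card_fixedBy (P : ℕ → Prop) (h : G) (hh : P (orderOf h)) :
    ∑ C : CycSub G P, ∑ d ∈ (orderOf (gen C)).divisors,
      ((μ d : ℤ) * ((orderOf (gen C) / d : ℕ) : ℤ)) *
        (Nat.card (MulAction.fixedBy (G ⧸ Subgroup.zpowers (gen C ^ d)) h) : ℤ) =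
      (Nat.card G : ℤ) := by
  rw [← sum_moebius_card_conj P h hh]
  apply Finset.sum_congr rfl
  intro C _
  apply Finset.sum_congr rfl
  intro d hd
  rw [← card_mul_card_fixedBy, Nat.card_zpowers, orderOf_pow,
    Nat.gcd_eq_right (Nat.dvd_of_mem_divisors hd)]
  push_cast
  ring

/-- **(EU-1d) Artin count**, in the form consumed by the assembly (EU-1e). -/
theorem exists_artin_families (P : ℕ → Prop) (hP : ∀ n d, P n → d ∣ n → P d) :
    ∃ (np nm : ℕ) (Dp : Fin np → Subgroup G) (Dm : Fin nm → Subgroup G),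
      (∀ i, IsCyclic (Dp i) ∧ P (Nat.card (Dp i))) ∧
      (∀ i, IsCyclic (Dm i) ∧ P (Nat.card (Dm i))) ∧
      ∀ h : G, P (orderOf h) →
        ∑ i, Nat.card (MulAction.fixedBy (G ⧸ Dp i) h) =
          ∑ i, Nat.card (MulAction.fixedBy (G ⧸ Dm i) h) + Nat.card G := by
  classical
  let J := Σ C : CycSub G P, ↥((orderOf (gen C)).divisors)
  let D : J → Subgroup G := fun j => Subgroup.zpowers (gen j.1 ^ (j.2 : ℕ))
  let w : J → ℤ := fun j => (μ (j.2 : ℕ) : ℤ) * ((orderOf (gen j.1) / (j.2 : ℕ) : ℕ) : ℤ)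
  obtain ⟨np, nm, Dp, Dm, hp, hm, hsum⟩ := exists_fin_families D w
  have hD : ∀ j : J, IsCyclic (D j) ∧ P (Nat.card (D j)) := by
    intro j
    refine ⟨inferInstance, ?_⟩
    have hd : (j.2 : ℕ) ∣ orderOf (gen j.1) := Nat.dvd_of_mem_divisors j.2.2
    show P (Nat.card (Subgroup.zpowers (gen j.1 ^ (j.2 : ℕ))))
    rw [Nat.card_zpowers, orderOf_pow, Nat.gcd_eq_right hd]
    refine hP _ _ (by rw [orderOf_gen]; exact j.1.2.2) (Nat.div_dvd_of_dvd hd)
  refine ⟨np, nm, Dp, Dm, ?_, ?_, ?_⟩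
  · intro i
    obtain ⟨j, -, hj⟩ := hp i
    rw [hj]; exact hD j
  · intro i
    obtain ⟨j, -, hj⟩ := hm i
    rw [hj]; exact hD j
  · intro h hh
    have := hsum (fun D => (Nat.card (MulAction.fixedBy (G ⧸ D) h) : ℤ))
    rw [Fintype.sum_sigma] at this
    have h2 : ∀ C : CycSub G P,
        ∑ d : ↥((orderOf (gen C)).divisors), w ⟨C, d⟩ *
          (Nat.card (MulAction.fixedBy (G ⧸ D ⟨C, d⟩) h) : ℤ) =
        ∑ d ∈ (orderOf (gen C)).divisors, ((μ d : ℤ) * ((orderOf (gen C) / d : ℕ) : ℤ)) *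
          (Nat.card (MulAction.fixedBy (G ⧸ Subgroup.zpowers (gen C ^ d)) h) : ℤ) := by
      intro C
      exact Finset.sum_coe_sort (orderOf (gen C)).divisors
        (fun d => ((μ d : ℤ) * ((orderOf (gen C) / d : ℕ) : ℤ)) *
          (Nat.card (MulAction.fixedBy (G ⧸ Subgroup.zpowers (gen C ^ d)) h) : ℤ))
    rw [Finset.sum_congr rfl (fun C _ => h2 C), sum_moebius_card_fixedBy P h hh] at this
    have h3 : ((∑ i, Nat.card (MulAction.fixedBy (G ⧸ Dp i) h) : ℕ) : ℤ) =
        ((∑ i, Nat.card (MulAction.fixedBy (G ⧸ Dm i) h) + Nat.card G : ℕ) : ℤ) := by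
      push_cast
      linarith
    exact_mod_cast h3

end Count

end Fermat.Agent.TW.Euler.Artin
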